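import Mathlib

/-!
# S26 / P2 SETUP / leaf L0 (algebra): smooth over a field ⟹ local rings are normal domains

Mathlib-only.  Route: `Algebra.IsSmoothAt.exists_isStandardEtale_mvPolynomial` (a smooth
`K`-algebra is, locally, standard étale over `P = K[T₁..Tₙ]`) and
`TensorProduct.toIntegralClosure_bijective_of_smooth` (integral closure commutes with smooth base
change): `S` is integrally closed in `S ⊗[P] Frac P`, an étale algebra over the field `Frac P`,
i.e. a finite product of fields (`Algebra.Etale.iff_exists_algEquiv_prod`); hence every local ring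
of `S` is a localisation of an integrally closed domain (`L0.core`).
-/

set_option autoImplicit false

universe u

namespace Fermat.Agent.S26.SETUP.L0

open Polynomial

section Core

variable (S : Type*) {E : Type*} [CommRing S] [CommRing E] [Algebra S E]
  {I : Type*} {L : I → Type*} [∀ i, Field (L i)] (e : E ≃+* Π i, L i)

/-- The projection of `S` to the `i`-th field factor of `E`. -/
noncomputable def proj (i : I) : S →+* L i :=
  ((Pi.evalRingHom L i).comp e.toRingHom).comp (algebraMap S E)

variable {S}

theorem proj_apply (i : I) (s : S) : proj S e i s = e (algebraMap S E s) i := rfl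

/-- Every element of the `i`-th factor is a fraction of projections of elements of `S`. -/
theorem exists_proj_mul_eq (M : Submonoid S) [IsLocalization M E] [DecidableEq I] (i : I)
    (l : L i) : ∃ (s : S) (m : S), proj S e i m ≠ 0 ∧ l * proj S e i m = proj S e i s := by
  obtain ⟨⟨s, m⟩, h⟩ := IsLocalization.surj M (e.symm (Pi.single i l))
  refine ⟨s, m, ?_, ?_⟩
  · have hu : IsUnit (algebraMap S E m) := IsLocalization.map_units E m
    have h2 : IsUnit (proj S e i (m : S)) := (hu.map e).map (Pi.evalRingHom L i)
    exact h2.ne_zero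
  · have := congrArg (fun x => e x i) h
    simpa [proj_apply] using this

/-- Idempotents of `E` lie in `S`. -/
theorem exists_idem (hic : ∀ x : E, IsIntegral S x → x ∈ (algebraMap S E).range)
    [DecidableEq I] (i : I) :
    ∃ ε : S, algebraMap S E ε = e.symm (Pi.single i 1) := by
  have h : IsIntegral S (e.symm (Pi.single i (1 : L i))) := by
    refine ⟨X ^ 2 - X, monic_X_pow_sub (degree_X_le.trans_lt (by exact_mod_cast Nat.one_lt_two)),
      ?_⟩
    have : (e.symm (Pi.single i (1 : L i))) ^ 2 = e.symm (Pi.single i (1 : L i)) := by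
      rw [sq, ← map_mul, ← Pi.single_mul, one_mul]
    simp [this]
  obtain ⟨ε, hε⟩ := hic _ h
  exact ⟨ε, hε⟩

/-- An element of the `i`-th factor that is integral over `S` is a projection. -/
theorem exists_proj_eq_of_isIntegralElem
    (hic : ∀ x : E, IsIntegral S x → x ∈ (algebraMap S E).range) [DecidableEq I] (i : I) (l : L i)
    (hl : (proj S e i).IsIntegralElem l) : ∃ w : S, proj S e i w = l := by
  obtain ⟨p, hp, hpl⟩ := hl
  have h : IsIntegral S (e.symm (Pi.single i l)) := by
    refine ⟨X * p, monic_X.mul hp, ?_⟩
    apply e.injective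
    funext j
    have hj : e (eval₂ (algebraMap S E) (e.symm (Pi.single i l)) p) j =
        eval₂ (proj S e j) (Pi.single i l j) p := by
      have := Polynomial.hom_eval₂ p (algebraMap S E)
        ((Pi.evalRingHom L j).comp e.toRingHom) (e.symm (Pi.single i l))
      simpa [proj] using this
    rw [eval₂_mul, eval₂_X, map_mul, map_zero, Pi.mul_apply, hj, e.apply_symm_apply]
    by_cases hji : j = i
    · subst hji
      simp [hpl]
    · simp [hji]
  obtain ⟨w, hw⟩ := hic _ h
  exact ⟨w, by simp [proj_apply, hw]⟩

/-- **Core.** Let `S ⊆ E` be integrally closed in `E`, where `E` is a localisation of `S` and a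
finite product of fields.  Then every local ring of `S` is an integrally closed domain. -/
theorem core (e : E ≃+* Π i, L i)
    (hic : ∀ x : E, IsIntegral S x → x ∈ (algebraMap S E).range)
    [Finite I] (M : Submonoid S) [IsLocalization M E]
    (hinj : Function.Injective (algebraMap S E)) (q : Ideal S) [hq : q.IsPrime] :
    IsDomain (Localization.AtPrime q) ∧ IsIntegrallyClosed (Localization.AtPrime q) := by
  classical
  have : Fintype I := Fintype.ofFinite I
  choose ε hε using exists_idem e hic
  have hsum : ∑ i, ε i = 1 := by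
    apply hinj
    rw [map_sum, map_one]
    simp_rw [hε]
    have h1 : ∑ i, Pi.single i (1 : L i) = (1 : Π i, L i) :=
      Finset.univ_sum_single (1 : Π i, L i)
    rw [← map_sum, h1, map_one]
  obtain ⟨i, hi⟩ : ∃ i, ε i ∉ q := by
    by_contra h
    simp only [not_exists, not_not] at h
    exact hq.ne_top ((Ideal.eq_top_iff_one q).mpr (hsum ▸ Ideal.sum_mem q (fun i _ => h i)))
  have hker : ∀ x ∈ RingHom.ker (proj S e i), x * ε i = 0 := by
    intro x hx
    apply hinj
    apply e.injective
    rw [map_mul, map_mul, map_zero, map_zero, hε, e.apply_symm_apply]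
    funext j
    by_cases hji : j = i
    · subst hji
      have : e (algebraMap S E x) j = 0 := hx
      simp [this]
    · simp [hji]
  have hle : RingHom.ker (proj S e i) ≤ q := fun x hx =>
    (hq.mem_or_mem (hker x hx ▸ q.zero_mem)).resolve_right hi
  let ι : S ⧸ RingHom.ker (proj S e i) →+* L i := RingHom.kerLift (proj S e i)
  have hι : Function.Injective ι := RingHom.kerLift_injective _
  let _ : Algebra (S ⧸ RingHom.ker (proj S e i)) (L i) := ι.toAlgebra
  have : IsDomain (S ⧸ RingHom.ker (proj S e i)) := hι.isDomain
  have : FaithfulSMul (S ⧸ RingHom.ker (proj S e i)) (L i) :=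
    (faithfulSMul_iff_algebraMap_injective _ _).mpr hι
  have : IsFractionRing (S ⧸ RingHom.ker (proj S e i)) (L i) := by
    refine IsFractionRing.of_field _ _ (fun l => ?_)
    obtain ⟨s, m, hm, h⟩ := exists_proj_mul_eq e M i l
    refine ⟨Ideal.Quotient.mk _ s, Ideal.Quotient.mk _ m, ?_⟩
    change l = proj S e i s / proj S e i m
    rw [eq_div_iff hm, h]
  have : IsIntegrallyClosed (S ⧸ RingHom.ker (proj S e i)) := by
    refine (isIntegrallyClosed_iff (L i)).mpr (fun {l} hl => ?_)
    have hl' : (proj S e i).IsIntegralElem l := by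
      obtain ⟨p, hp, hpl⟩ := hl
      obtain ⟨p', hp', -, hp'm⟩ := Polynomial.lifts_and_degree_eq_and_monic
        ((Polynomial.mem_lifts p).mpr
          (Polynomial.map_surjective _ Ideal.Quotient.mk_surjective p)) hp
      refine ⟨p', hp'm, ?_⟩
      have h1 : proj S e i = ι.comp (Ideal.Quotient.mk _) := by
        ext x; rfl
      rw [h1, ← Polynomial.eval₂_map, hp']
      exact hpl
    obtain ⟨w, hw⟩ := exists_proj_eq_of_isIntegralElem e hic i l hl'
    exact ⟨Ideal.Quotient.mk _ w, hw⟩
  let φ : S ⧸ RingHom.ker (proj S e i) →+* Localization.AtPrime q :=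
    Ideal.Quotient.lift _ (algebraMap S (Localization.AtPrime q)) (fun x hx => by
      rw [IsLocalization.map_eq_zero_iff q.primeCompl]
      exact ⟨⟨ε i, hi⟩, by rw [mul_comm]; exact hker x hx⟩)
  let _ : Algebra (S ⧸ RingHom.ker (proj S e i)) (Localization.AtPrime q) := φ.toAlgebra
  have hM : q.primeCompl.map (Ideal.Quotient.mk (RingHom.ker (proj S e i))) ≤
      nonZeroDivisors (S ⧸ RingHom.ker (proj S e i)) := by
    rintro _ ⟨s, hs, rfl⟩
    refine mem_nonZeroDivisors_of_ne_zero ?_
    rw [Ne, Ideal.Quotient.eq_zero_iff_mem]
    exact fun h => hs (hle h)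
  have hloc : IsLocalization (q.primeCompl.map (Ideal.Quotient.mk (RingHom.ker (proj S e i))))
      (Localization.AtPrime q) := by
    refine ⟨?_, ?_, ?_⟩
    · rintro ⟨_, s, hs, rfl⟩
      exact IsLocalization.map_units (Localization.AtPrime q) (⟨s, hs⟩ : q.primeCompl)
    · intro z
      obtain ⟨⟨x, s⟩, h⟩ := IsLocalization.surj q.primeCompl z
      exact ⟨⟨Ideal.Quotient.mk _ x, ⟨Ideal.Quotient.mk _ s, s, s.2, rfl⟩⟩, h⟩
    · intro a b hab
      obtain ⟨x, rfl⟩ := Ideal.Quotient.mk_surjective a
      obtain ⟨y, rfl⟩ := Ideal.Quotient.mk_surjective b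
      have hab' : algebraMap S (Localization.AtPrime q) x =
          algebraMap S (Localization.AtPrime q) y := hab
      obtain ⟨c, hc⟩ := (IsLocalization.eq_iff_exists q.primeCompl _).mp hab'
      exact ⟨⟨Ideal.Quotient.mk _ c, c, c.2, rfl⟩, by
        simp only [← map_mul, hc]⟩
  exact ⟨IsLocalization.isDomain_of_le_nonZeroDivisors _ hM,
    isIntegrallyClosed_of_isLocalization _ _ hM⟩

end Core

section Etale

open TensorProduct

/-- An étale algebra over an integrally closed domain has integrally closed domains as local
rings. -/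
theorem etale_core (P S : Type u) [CommRing P] [IsDomain P] [IsIntegrallyClosed P] [CommRing S]
    [Algebra P S] [Algebra.Etale P S] (q : Ideal S) [q.IsPrime] :
    IsDomain (Localization.AtPrime q) ∧ IsIntegrallyClosed (Localization.AtPrime q) := by
  obtain ⟨I, hI, L, hL, hLalg, e₀, -⟩ :=
    (Algebra.Etale.iff_exists_algEquiv_prod (FractionRing P) (FractionRing P ⊗[P] S)).mp
      inferInstance
  let e : S ⊗[P] FractionRing P ≃+* Π i, L i :=
    (Algebra.TensorProduct.comm P S (FractionRing P)).toRingEquiv.trans e₀.toRingEquiv
  have hinj : Function.Injective (algebraMap S (S ⊗[P] FractionRing P)) :=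
    Algebra.TensorProduct.includeLeft_injective (S := S)
      (IsFractionRing.injective P (FractionRing P))
  have hic : ∀ x : S ⊗[P] FractionRing P, IsIntegral S x →
      x ∈ (algebraMap S (S ⊗[P] FractionRing P)).range := by
    intro x hx
    obtain ⟨y, hy⟩ := (TensorProduct.toIntegralClosure_bijective_of_smooth
      (R := P) (S := S) (B := FractionRing P)).2 ⟨x, hx⟩
    have hy' : (Algebra.TensorProduct.map (AlgHom.id S S)
        (integralClosure P (FractionRing P)).val) y = x := congrArg Subtype.val hy
    rw [← hy']
    clear hy hy'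
    induction y with
    | zero => simp
    | add a b ha hb => rw [map_add]; exact add_mem ha hb
    | tmul s b =>
      obtain ⟨c, hc⟩ := IsIntegrallyClosed.isIntegral_iff.mp b.2
      refine ⟨c • s, ?_⟩
      simp only [Algebra.TensorProduct.map_tmul, AlgHom.coe_id, id_eq, Subalgebra.coe_val, ← hc]
      rw [Algebra.TensorProduct.algebraMap_apply, Algebra.algebraMap_self, RingHom.id_apply,
        Algebra.algebraMap_eq_smul_one c, TensorProduct.smul_tmul]
  exact core e hic (Algebra.algebraMapSubmonoid S (nonZeroDivisors P)) hinj q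

end Etale

section Main

/-- Local rings of a smooth algebra over a field are integrally closed domains. -/
theorem smooth_core (K B : Type u) [Field K] [CommRing B] [Algebra K B] [Algebra.Smooth K B]
    (p : Ideal B) [hp : p.IsPrime] :
    IsDomain (Localization.AtPrime p) ∧ IsIntegrallyClosed (Localization.AtPrime p) := by
  obtain ⟨f, hf, n, _, _, _⟩ :=
    Algebra.IsSmoothAt.exists_isStandardEtale_mvPolynomial (R := K) (p := p)
  have hdisj : Disjoint (Submonoid.powers f : Set B) (p : Set B) :=
    (Ideal.disjoint_powers_iff_notMem_of_isPrime _).mpr hf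
  have hq : (Ideal.map (algebraMap B (Localization.Away f)) p).IsPrime :=
    IsLocalization.isPrime_of_isPrime_disjoint (.powers f) _ _ hp hdisj
  have hcomap : (Ideal.map (algebraMap B (Localization.Away f)) p).comap
      (algebraMap B (Localization.Away f)) = p :=
    IsLocalization.under_map_of_isPrime_disjoint (.powers f) _ hp hdisj
  obtain ⟨h1, h2⟩ := etale_core (MvPolynomial (Fin n) K) (Localization.Away f)
    (Ideal.map (algebraMap B (Localization.Away f)) p)
  suffices h : ∀ (p' : Ideal B) (hp' : p'.IsPrime),
      p' = (Ideal.map (algebraMap B (Localization.Away f)) p).comap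
        (algebraMap B (Localization.Away f)) →
      IsDomain (Localization.AtPrime p') ∧ IsIntegrallyClosed (Localization.AtPrime p') from
    h p hp hcomap.symm
  rintro p' hp' rfl
  let eq := IsLocalization.localizationLocalizationAtPrimeIsoLocalization (.powers f)
    (Ideal.map (algebraMap B (Localization.Away f)) p)
  exact ⟨eq.toRingEquiv.toMulEquiv.isDomain _, IsIntegrallyClosed.of_equiv eq.symm.toRingEquiv⟩

end Main

end Fermat.Agent.S26.SETUP.L0

namespace Fermat.Agent.S26.SETUP

/-- L0a. Local rings of a smooth algebra over a field are domains. -/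
theorem isDomain_localization_atPrime_of_smooth (K B : Type u) [Field K] [CommRing B]
    [Algebra K B] [Algebra.Smooth K B] (p : Ideal B) [p.IsPrime] :
    IsDomain (Localization.AtPrime p) :=
  (L0.smooth_core K B p).1

/-- L0b. Local rings of a smooth algebra over a field are integrally closed. -/
theorem isIntegrallyClosed_localization_atPrime_of_smooth (K B : Type u) [Field K] [CommRing B]
    [Algebra K B] [Algebra.Smooth K B] (p : Ideal B) [p.IsPrime] :
    IsIntegrallyClosed (Localization.AtPrime p) :=
  (L0.smooth_core K B p).2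

end Fermat.Agent.S26.SETUP
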