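import Mathlib
import Fermat.Agent.S26.SETUP.SmoothNormalAlg

/-!
# S26 / P2 SETUP / leaf L1 (schemes): stalks of a smooth scheme over a field are normal domains

From L0 (`SmoothNormalAlg`): pick affine opens `x ∈ V`, `f V ⊆ U = ⊤` with `Γ(X, V)` smooth over
`Γ(Spec K, U) ≅ K`; the stalk at `x` is the localisation of `Γ(X, V)` at a prime
(`IsAffineOpen.isLocalization_stalk`).
-/

set_option autoImplicit false

universe u

open CategoryTheory AlgebraicGeometry

namespace Fermat.Agent.S26.SETUP

namespace L1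

/-- A smooth chart at a point: for `f : X ⟶ Spec K` smooth and `x : X`, the stalk at `x` is
(ring-isomorphic to) the localisation at a prime of a smooth `K`-algebra. -/
theorem exists_smooth_chart {K : Type u} [Field K] {X : Scheme.{u}}
    (f : X ⟶ Spec (CommRingCat.of K)) [Smooth f] (x : X) :
    ∃ (B : Type u) (_ : CommRing B) (_ : Algebra K B) (_ : Algebra.Smooth K B)
      (p : Ideal B) (_ : p.IsPrime), Nonempty (Localization.AtPrime p ≃+* X.presheaf.stalk x) := by
  obtain ⟨V, hV, hxV, -⟩ := exists_isAffineOpen_mem_and_subset (x := x) (U := ⊤) trivial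
  have e : V ≤ f ⁻¹ᵁ ⊤ := fun _ _ => trivial
  have hf : (f.appLE ⊤ V e).hom.Smooth := f.smooth_appLE (isAffineOpen_top _) hV e
  let ψ : K →+* Γ(X, V) :=
    (f.appLE ⊤ V e).hom.comp (Scheme.ΓSpecIso (CommRingCat.of K)).commRingCatIsoToRingEquiv.symm
  have hψ : ψ.Smooth :=
    RingHom.Smooth.comp (RingHom.Smooth.of_bijective
      (Scheme.ΓSpecIso (CommRingCat.of K)).commRingCatIsoToRingEquiv.symm.bijective) hf
  let _ : Algebra K Γ(X, V) := ψ.toAlgebra
  have hsm : Algebra.Smooth K Γ(X, V) := hψ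
  let _ : Algebra Γ(X, V) (X.presheaf.stalk x) :=
    X.presheaf.algebra_section_stalk (⟨x, hxV⟩ : V)
  have hloc : IsLocalization.AtPrime (X.presheaf.stalk x) (hV.primeIdealOf ⟨x, hxV⟩).asIdeal :=
    hV.isLocalization_stalk ⟨x, hxV⟩
  exact ⟨Γ(X, V), inferInstance, inferInstance, hsm, (hV.primeIdealOf ⟨x, hxV⟩).asIdeal,
    inferInstance,
    ⟨(IsLocalization.algEquiv (hV.primeIdealOf ⟨x, hxV⟩).asIdeal.primeCompl
      (Localization.AtPrime (hV.primeIdealOf ⟨x, hxV⟩).asIdeal) (X.presheaf.stalk x)).toRingEquiv⟩⟩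

end L1

/-- L1a. Stalks of a smooth scheme over a field are domains. -/
theorem isDomain_stalk_of_smooth {K : Type u} [Field K] {X : Scheme.{u}}
    (f : X ⟶ Spec (CommRingCat.of K)) [Smooth f] (x : X) :
    IsDomain (X.presheaf.stalk x) := by
  obtain ⟨B, _, _, _, p, _, ⟨e⟩⟩ := L1.exists_smooth_chart f x
  have := isDomain_localization_atPrime_of_smooth K B p
  exact e.symm.toMulEquiv.isDomain (Localization.AtPrime p)

/-- L1b. Stalks of a smooth scheme over a field are integrally closed. -/
theorem isIntegrallyClosed_stalk_of_smooth {K : Type u} [Field K] {X : Scheme.{u}}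
    (f : X ⟶ Spec (CommRingCat.of K)) [Smooth f] (x : X) :
    IsIntegrallyClosed (X.presheaf.stalk x) := by
  obtain ⟨B, _, _, _, p, _, ⟨e⟩⟩ := L1.exists_smooth_chart f x
  have := isDomain_localization_atPrime_of_smooth K B p
  have := isIntegrallyClosed_localization_atPrime_of_smooth K B p
  exact IsIntegrallyClosed.of_equiv e

end Fermat.Agent.S26.SETUP
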