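import Mathlib

/-!
# S26 / P2 SETUP / leaf L3 (algebra): `trdeg_K Frac B = g` for `B` standard smooth of rel. dim. `g`

Mathlib-only.  Route:
`Algebra.IsStandardSmoothOfRelativeDimension.exists_etale_mvPolynomial` gives an étale map
`K[T₁..T_g] → B`; it is injective (flat, `B` a nonzero domain) and `Frac B` is algebraic over
`K(T₁..T_g)` (formally unramified + essentially of finite type ⟹ finite separable); conclude with
`IsTranscendenceBasis.mvPolynomial` and `IsTranscendenceBasis.algebraMap_comp`.
-/

set_option autoImplicit false

universe u

namespace Fermat.Agent.S26.SETUP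

namespace L3

universe v

/-- If `P → S` is étale, `P` a domain and `S` nontrivial, then `P → S` is injective. -/
theorem faithfulSMul_of_etale (P S : Type*) [CommRing P] [IsDomain P] [CommRing S] [Nontrivial S]
    [Algebra P S] [Algebra.Etale P S] : FaithfulSMul P S := by
  have : Module.Flat P S := inferInstance
  rw [faithfulSMul_iff_algebraMap_injective]
  rw [injective_iff_map_eq_zero]
  intro p hp
  by_contra hne
  have hreg : IsRegular p := IsRegular.of_ne_zero hne
  have h1 : p • (1 : S) = 0 := by rw [Algebra.smul_def, hp, zero_mul]
  have := Module.IsTorsionFree.isSMulRegular (M := S) hreg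
  have h2 : (1 : S) = 0 := this (by simp only [h1, smul_zero])
  exact one_ne_zero h2

section EtaleOverPolynomial

variable (K : Type u) [Field K] (g : ℕ) (S : Type v) [CommRing S] [IsDomain S]
    [Algebra K S] [Algebra (MvPolynomial (Fin g) K) S] [IsScalarTower K (MvPolynomial (Fin g) K) S]
    [Algebra.Etale (MvPolynomial (Fin g) K) S]
    (F : Type*) [Field F] [Algebra S F] [IsFractionRing S F] [Algebra K F] [IsScalarTower K S F]

/-- If `S` is an étale domain over `K[x₁..x_g]`, then the images of the `x_i` form a
transcendence basis of `Frac S` over `K`. -/
theorem isTranscendenceBasis_of_etale_mvPolynomial :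
    IsTranscendenceBasis K
      (fun i : Fin g =>
        algebraMap S F (algebraMap (MvPolynomial (Fin g) K) S (MvPolynomial.X i))) := by
  let P := MvPolynomial (Fin g) K
  let : Algebra P F := ((algebraMap S F).comp (algebraMap P S)).toAlgebra
  have : IsScalarTower P S F := IsScalarTower.of_algebraMap_eq (fun _ => rfl)
  have : IsScalarTower K P F := IsScalarTower.of_algebraMap_eq (fun r => by
    rw [IsScalarTower.algebraMap_apply P S F, ← IsScalarTower.algebraMap_apply K P S,
      ← IsScalarTower.algebraMap_apply K S F])
  have hPS : FaithfulSMul P S := faithfulSMul_of_etale P S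
  have : FaithfulSMul P F := by
    rw [faithfulSMul_iff_algebraMap_injective]
    rw [IsScalarTower.algebraMap_eq P S F]
    exact (IsFractionRing.injective S F).comp (FaithfulSMul.algebraMap_injective P S)
  let : Algebra (FractionRing P) F := FractionRing.liftAlgebra P F
  have : IsScalarTower P (FractionRing P) F := FractionRing.isScalarTower_liftAlgebra P F
  have : Algebra.FormallyUnramified S F :=
    Algebra.FormallyUnramified.of_isLocalization (nonZeroDivisors S)
  have : Algebra.FormallyUnramified P F := Algebra.FormallyUnramified.comp P S F
  have : Algebra.FormallyUnramified (FractionRing P) F :=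
    Algebra.FormallyUnramified.of_restrictScalars P (FractionRing P) F
  have : Algebra.EssFiniteType S F := Algebra.EssFiniteType.of_isLocalization F (nonZeroDivisors S)
  have : Algebra.EssFiniteType P F := Algebra.EssFiniteType.comp P S F
  have : Algebra.EssFiniteType (FractionRing P) F :=
    Algebra.EssFiniteType.of_comp P (FractionRing P) F
  have : Algebra.IsSeparable (FractionRing P) F :=
    Algebra.FormallyUnramified.isSeparable (FractionRing P) F
  have : Algebra.IsAlgebraic (FractionRing P) F := inferInstance
  have : Algebra.IsAlgebraic P F :=
    (IsFractionRing.comap_isAlgebraic_iff (K := FractionRing P)).mpr inferInstance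
  exact (IsTranscendenceBasis.mvPolynomial (Fin g) K).algebraMap_comp (A := F)

end EtaleOverPolynomial

section StandardSmooth

variable (K : Type u) [Field K] (g : ℕ) (S : Type v) [CommRing S] [Algebra K S]
    [Algebra.IsStandardSmoothOfRelativeDimension g K S]
    (F : Type*) [Field F] [Algebra S F] [IsFractionRing S F] [Algebra K F] [IsScalarTower K S F]

/-- The fraction field of a domain which is standard smooth of relative dimension `g`
over a field `K` has a transcendence basis of `g` elements (coming from `S`). -/
theorem exists_isTranscendenceBasis_of_isStandardSmooth [IsDomain S] :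
    ∃ x : Fin g → S, IsTranscendenceBasis K (fun i => algebraMap S F (x i)) := by
  obtain ⟨φ, hφ⟩ := Algebra.IsStandardSmoothOfRelativeDimension.exists_etale_mvPolynomial g K S
  let : Algebra (MvPolynomial (Fin g) K) S := φ.toRingHom.toAlgebra
  have : IsScalarTower K (MvPolynomial (Fin g) K) S :=
    IsScalarTower.of_algebraMap_eq (fun r => (φ.commutes r).symm)
  have : Algebra.Etale (MvPolynomial (Fin g) K) S := hφ
  exact ⟨fun i => algebraMap (MvPolynomial (Fin g) K) S (MvPolynomial.X i),
    isTranscendenceBasis_of_etale_mvPolynomial K g S F⟩

include S in
/-- `trdeg_K F = g` for `F` a fraction field of a standard smooth domain `S` of relative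
dimension `g` (any model `F` of the fraction field, any universes). -/
theorem trdeg_eq_of_isStandardSmooth [IsDomain S] : Algebra.trdeg K F = g := by
  obtain ⟨x, hx⟩ := exists_isTranscendenceBasis_of_isStandardSmooth K g S F
  have := hx.lift_cardinalMk_eq_trdeg
  simpa using this.symm

include S g in
/-- `Frac(S)` is a finitely generated field extension of `K`. -/
theorem essFiniteType_of_isStandardSmooth : Algebra.EssFiniteType K F := by
  have : Algebra.EssFiniteType S F := Algebra.EssFiniteType.of_isLocalization F (nonZeroDivisors S)
  have : Algebra.IsStandardSmooth K S :=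
    Algebra.IsStandardSmoothOfRelativeDimension.isStandardSmooth g
  have : Algebra.FiniteType K S := inferInstance
  exact Algebra.EssFiniteType.comp K S F

end StandardSmooth

end L3

/-- L3. A domain that is standard smooth of relative dimension `g` over a field `K`
has a fraction field of transcendence degree `g` over `K`. -/
theorem trdeg_fractionRing_of_isStandardSmoothOfRelativeDimension (K B : Type u) [Field K]
    [CommRing B] [IsDomain B] [Algebra K B] (g : ℕ)
    [Algebra.IsStandardSmoothOfRelativeDimension g K B] :
    Algebra.trdeg K (FractionRing B) = g :=
  L3.trdeg_eq_of_isStandardSmooth K g B (FractionRing B)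

end Fermat.Agent.S26.SETUP
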