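import Mathlib
import Fermat.Agent.S26.SETUP.TrdegAlg

/-!
# S26 / P2 SETUP / leaf L4: the `K`-algebra `K(X)` and `trdeg_K K(X) = g`

Definitions of the `K`-algebra structures (FROZEN: other packages use them) and the scheme-level
transcendence degree statement, from L3 (`TrdegAlg`) via
`functionField_isFractionRing_of_isAffineOpen`.
-/

set_option autoImplicit false

universe u

open CategoryTheory AlgebraicGeometry

namespace Fermat.Agent.S26.SETUP

/-- The ring map `K → Γ(X, U)` given by a structure morphism `f : X ⟶ Spec K`. -/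
noncomputable def sectionsAlgebraMap {K : Type u} [Field K] {X : Scheme.{u}}
    (f : X ⟶ Spec (CommRingCat.of K)) (U : X.Opens) : K →+* Γ(X, U) :=
  (X.presheaf.map (homOfLE (le_top : U ≤ ⊤)).op).hom.comp
    (f.appTop.hom.comp (Scheme.ΓSpecIso (CommRingCat.of K)).inv.hom)

/-- The ring map `K → 𝒪_{X,x}` given by a structure morphism `f : X ⟶ Spec K`. -/
noncomputable def stalkAlgebraMap {K : Type u} [Field K] {X : Scheme.{u}}
    (f : X ⟶ Spec (CommRingCat.of K)) (x : X) : K →+* X.presheaf.stalk x :=
  (X.presheaf.germ ⊤ x trivial).hom.comp (sectionsAlgebraMap f ⊤)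

/-- The `K`-algebra structure on the function field of an irreducible `K`-scheme.
(Not an instance: use `letI := functionFieldAlgebra f`.) -/
@[reducible] noncomputable def functionFieldAlgebra {K : Type u} [Field K] {X : Scheme.{u}}
    (f : X ⟶ Spec (CommRingCat.of K)) [IrreducibleSpace X] : Algebra K X.functionField :=
  (stalkAlgebraMap f (genericPoint X)).toAlgebra

namespace L4

/-- `K → Γ(X, U) → 𝒪_{X,x}` is `stalkAlgebraMap f x` for every `x ∈ U`. -/
theorem germ_sectionsAlgebraMap {K : Type u} [Field K] {X : Scheme.{u}}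
    (f : X ⟶ Spec (CommRingCat.of K)) (U : X.Opens) (x : X) (hx : x ∈ U) (c : K) :
    X.presheaf.germ U x hx (sectionsAlgebraMap f U c) = stalkAlgebraMap f x c := by
  have h1 : X.presheaf.germ U x hx (sectionsAlgebraMap f U c) =
      X.presheaf.germ ⊤ x trivial
        (f.appTop.hom ((Scheme.ΓSpecIso (CommRingCat.of K)).inv.hom c)) :=
    TopCat.Presheaf.germ_res_apply X.presheaf (homOfLE (le_top : U ≤ ⊤)) x hx _
  have h2 : stalkAlgebraMap f x c =
      X.presheaf.germ ⊤ x trivial
        (f.appTop.hom ((Scheme.ΓSpecIso (CommRingCat.of K)).inv.hom c)) := by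
    have : sectionsAlgebraMap f ⊤ c =
        f.appTop.hom ((Scheme.ΓSpecIso (CommRingCat.of K)).inv.hom c) := by
      change (X.presheaf.map (𝟙 _)).hom _ = _
      rw [X.presheaf.map_id]
      rfl
    change (X.presheaf.germ ⊤ x trivial).hom (sectionsAlgebraMap f ⊤ c) = _
    rw [this]
  rw [h1, h2]

/-- `sectionsAlgebraMap f U` is `K ≅ Γ(Spec K, ⊤) → Γ(X, U)`, the second map being `f.appLE`. -/
theorem sectionsAlgebraMap_eq_appLE {K : Type u} [Field K] {X : Scheme.{u}}
    (f : X ⟶ Spec (CommRingCat.of K)) (U : X.Opens) :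
    sectionsAlgebraMap f U =
      (f.appLE ⊤ U le_top).hom.comp (Scheme.ΓSpecIso (CommRingCat.of K)).inv.hom :=
  rfl

/-- A morphism `X ⟶ Spec K` which is smooth of relative dimension `g`, `X` integral, is standard
smooth of relative dimension `g` on some nonempty affine open of `X`. -/
theorem exists_affine_isStandardSmooth {K : Type u} [Field K] {X : Scheme.{u}} [IsIntegral X]
    (f : X ⟶ Spec (CommRingCat.of K)) (g : ℕ) [SmoothOfRelativeDimension g f] :
    ∃ (V : X.Opens) (_ : IsAffineOpen V) (_ : Nonempty V),
      (sectionsAlgebraMap f V).IsStandardSmoothOfRelativeDimension g := by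
  obtain ⟨U, hU, V, hV, hx, e, hf⟩ :=
    SmoothOfRelativeDimension.exists_isStandardSmoothOfRelativeDimension (n := g) (f := f)
      (genericPoint X)
  have hUtop : U = ⊤ := by
    ext y
    simp only [TopologicalSpace.Opens.coe_top, Set.mem_univ, iff_true]
    have : f.base (genericPoint X) ∈ U := e hx
    have hsub : Subsingleton (Spec (CommRingCat.of K)) :=
      inferInstanceAs (Subsingleton (PrimeSpectrum K))
    rw [Subsingleton.elim y (f.base (genericPoint X))]
    exact this
  subst hUtop
  refine ⟨V, hV, ⟨⟨genericPoint X, hx⟩⟩, ?_⟩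
  have h0 : ((Scheme.ΓSpecIso (CommRingCat.of K)).inv.hom).IsStandardSmoothOfRelativeDimension 0 :=
    RingHom.IsStandardSmoothOfRelativeDimension.equiv
      (Scheme.ΓSpecIso (CommRingCat.of K)).symm.commRingCatIsoToRingEquiv
  rw [sectionsAlgebraMap_eq_appLE]
  simpa using hf.comp h0

end L4

/-- L4a. Compatibility: `K → Γ(X, U) → K(X)` is the algebra map of `functionFieldAlgebra`. -/
theorem germToFunctionField_sectionsAlgebraMap {K : Type u} [Field K] {X : Scheme.{u}}
    (f : X ⟶ Spec (CommRingCat.of K)) [IrreducibleSpace X] (U : X.Opens) [Nonempty U] (c : K) :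
    X.germToFunctionField U (sectionsAlgebraMap f U c) =
      (functionFieldAlgebra f).algebraMap c :=
  L4.germ_sectionsAlgebraMap f U (genericPoint X) _ c

/-- L4b (export). The function field of an integral scheme, smooth of relative dimension `g`
over a field `K`, has transcendence degree `g` over `K`. -/
theorem trdeg_functionField {K : Type u} [Field K] {X : Scheme.{u}}
    (f : X ⟶ Spec (CommRingCat.of K)) [IsIntegral X] (g : ℕ) [SmoothOfRelativeDimension g f] :
    letI := functionFieldAlgebra f
    Algebra.trdeg K X.functionField = g := by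
  let := functionFieldAlgebra f
  obtain ⟨V, hV, hne, hψ⟩ := L4.exists_affine_isStandardSmooth f g
  let : Algebra K Γ(X, V) := (sectionsAlgebraMap f V).toAlgebra
  have : Algebra.IsStandardSmoothOfRelativeDimension g K Γ(X, V) := hψ
  have := functionField_isFractionRing_of_isAffineOpen X V hV
  have : IsScalarTower K Γ(X, V) X.functionField := IsScalarTower.of_algebraMap_eq (fun c =>
    (germToFunctionField_sectionsAlgebraMap f V c).symm)
  exact L3.trdeg_eq_of_isStandardSmooth K g Γ(X, V) X.functionField

end Fermat.Agent.S26.SETUP
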