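import Fermat.Statements.S26
import Fermat.Agent.S26.SETUP.SmoothNormal

/-!
# S26 / P2 SETUP / leaf L2: `A` is connected, noetherian, integral
-/

set_option autoImplicit false

universe u

open CategoryTheory AlgebraicGeometry GoodReductionJacobian

namespace Fermat.Agent.S26.SETUP

namespace L2

/-- If two irreducible components of a scheme pass through a point whose stalk is a domain,
they coincide: both are the closure of the image of the generic point of `Spec 𝒪_{X,x}`. -/
theorem eq_of_mem_irreducibleComponents_of_isDomain_stalk (X : Scheme.{u}) (x : X)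
    [IsDomain (X.presheaf.stalk x)] {Z : Set X} (hZ : Z ∈ irreducibleComponents X)
    (hx : x ∈ Z) :
    Z = closure {X.fromSpecStalk x (⊥ : PrimeSpectrum (X.presheaf.stalk x))} := by
  have hZcl : IsClosed Z := isClosed_of_mem_irreducibleComponents Z hZ
  obtain ⟨η, hη⟩ := QuasiSober.sober hZ.1 hZcl
  -- `η` specializes to `x`, hence comes from a prime of the stalk
  have hηx : η ⤳ x := by
    rw [specializes_iff_mem_closure, hη.def]
    exact hx
  have hmem : η ∈ Set.range (X.fromSpecStalk x) := by
    rw [Scheme.range_fromSpecStalk]
    exact hηx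
  obtain ⟨q, rfl⟩ := hmem
  -- the generic point of the spectrum of the stalk specializes to `q`
  have hbot : (⊥ : PrimeSpectrum (X.presheaf.stalk x)) ⤳ q :=
    (PrimeSpectrum.le_iff_specializes _ _).mp bot_le
  have hξ := hbot.map (X.fromSpecStalk x).continuous
  -- so `Z ⊆ closure {ξ}`, and by maximality equality holds
  have hle : Z ≤ closure {X.fromSpecStalk x (⊥ : PrimeSpectrum (X.presheaf.stalk x))} := by
    rw [← hη.def]
    exact closure_minimal (Set.singleton_subset_iff.mpr
      (specializes_iff_mem_closure.mp hξ)) isClosed_closure
  exact le_antisymm hle (hZ.2 isIrreducible_singleton.closure hle)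

end L2

/-- L2a. The total space of the frozen property bundle over a field is connected. -/
theorem connectedSpace_of_bundle {K : Type u} [Field K] {A : Scheme.{u}}
    (f : A ⟶ Spec (CommRingCat.of K)) (hA : AbelianSchemePropertyBundle K f) :
    ConnectedSpace A := by
  obtain ⟨s⟩ : Nonempty (Spec (CommRingCat.of K)) := inferInstance
  have h := hA.connectedFibres s
  have huniv : (f.base ⁻¹' {s} : Set A) = Set.univ := by
    ext y
    simp only [Set.mem_preimage, Set.mem_singleton_iff, Set.mem_univ, iff_true]
    exact Subsingleton.elim _ _
  rw [huniv] at h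
  exact connectedSpace_iff_univ.mpr h

/-- L2b. A quasi-compact scheme locally of finite type over a field is noetherian. -/
theorem isNoetherian_of_locallyOfFiniteType {K : Type u} [Field K] {X : Scheme.{u}}
    (f : X ⟶ Spec (CommRingCat.of K)) [LocallyOfFiniteType f] [CompactSpace X] :
    IsNoetherian X := by
  have : IsLocallyNoetherian X := LocallyOfFiniteType.isLocallyNoetherian f
  exact { }

/-- L2c. A connected noetherian scheme all of whose stalks are domains is integral. -/
theorem isIntegral_of_connectedSpace_of_isDomain_stalk (X : Scheme.{u}) [IsNoetherian X]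
    [ConnectedSpace X] (h : ∀ x : X, IsDomain (X.presheaf.stalk x)) : IsIntegral X := by
  have hred : ∀ x : X, _root_.IsReduced (X.presheaf.stalk x) := fun x => by
    have := h x
    infer_instance
  have : IsReduced X := isReduced_of_isReduced_stalk X
  -- two irreducible components through a common point coincide
  have hD : ∀ Z₁ ∈ irreducibleComponents X, ∀ Z₂ ∈ irreducibleComponents X,
      ∀ x : X, x ∈ Z₁ → x ∈ Z₂ → Z₁ = Z₂ := by
    intro Z₁ h₁ Z₂ h₂ x hx₁ hx₂
    have := h x
    rw [L2.eq_of_mem_irreducibleComponents_of_isDomain_stalk X x h₁ hx₁,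
      L2.eq_of_mem_irreducibleComponents_of_isDomain_stalk X x h₂ hx₂]
  have hfin : (irreducibleComponents X).Finite :=
    TopologicalSpace.NoetherianSpace.finite_irreducibleComponents
  obtain ⟨x₀⟩ : Nonempty X := inferInstance
  set Z := irreducibleComponent x₀ with hZdef
  have hZ : Z ∈ irreducibleComponents X := irreducibleComponent_mem_irreducibleComponents x₀
  have hx₀Z : x₀ ∈ Z := mem_irreducibleComponent
  have hZclosed : IsClosed Z := isClosed_of_mem_irreducibleComponents Z hZ
  have hcompl : Zᶜ = ⋃₀ (irreducibleComponents X \ {Z}) := by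
    ext y
    simp only [Set.mem_compl_iff, Set.mem_sUnion, Set.mem_sdiff, Set.mem_singleton_iff]
    constructor
    · intro hy
      refine ⟨irreducibleComponent y, ⟨irreducibleComponent_mem_irreducibleComponents y, ?_⟩,
        mem_irreducibleComponent⟩
      intro heq
      exact hy (heq ▸ mem_irreducibleComponent)
    · rintro ⟨W, ⟨hW, hWZ⟩, hyW⟩ hyZ
      exact hWZ (hD W hW Z hZ y hyW hyZ)
  have hZopen : IsOpen Z := by
    rw [← isClosed_compl_iff, hcompl, Set.sUnion_eq_biUnion]
    exact Set.Finite.isClosed_biUnion (hfin.subset Set.sdiff_subset)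
      (fun s hs => isClosed_of_mem_irreducibleComponents s hs.1)
  have hZuniv : Z = Set.univ := IsClopen.eq_univ ⟨hZclosed, hZopen⟩ ⟨x₀, hx₀Z⟩
  have : IrreducibleSpace X := by
    rw [irreducibleSpace_def]
    have := hZ.1
    rwa [hZuniv] at this
  exact isIntegral_of_irreducibleSpace_of_isReduced X

/-- L2d. A connected quasi-compact smooth scheme over a field is integral. -/
theorem isIntegral_of_smooth_of_connectedSpace {K : Type u} [Field K] {X : Scheme.{u}}
    (f : X ⟶ Spec (CommRingCat.of K)) [Smooth f] [CompactSpace X] [ConnectedSpace X] :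
    IsIntegral X := by
  have : IsNoetherian X := isNoetherian_of_locallyOfFiniteType f
  exact isIntegral_of_connectedSpace_of_isDomain_stalk X (fun x => isDomain_stalk_of_smooth f x)

/-- L2e (export). The total space of the frozen property bundle over a field is integral. -/
theorem isIntegral_of_bundle {K : Type u} [Field K] {A : Scheme.{u}}
    (f : A ⟶ Spec (CommRingCat.of K)) (hA : AbelianSchemePropertyBundle K f) :
    IsIntegral A := by
  have := hA.smooth
  have := hA.proper
  have : CompactSpace A := QuasiCompact.compactSpace_of_compactSpace f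
  have : ConnectedSpace A := connectedSpace_of_bundle f hA
  exact isIntegral_of_smooth_of_connectedSpace f

end Fermat.Agent.S26.SETUP
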