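import Fermat.Agent.S26.AVDefs
import Fermat.Agent.S26.SETUP.Integral
import Fermat.Agent.S26.SETUP.Trdeg

/-!
# S26 / P2 SETUP, phase 2 (helper3196): the P2 exports of `Fermat/Agent/S26/Top.lean`

Proved here, in the vocabulary of the lead's frozen `Defs.lean` / `AVDefs.lean`, with EXACTLY the
frozen signatures (namespace `Fermat.Agent.S26.SETUP.X3196`):
`isIntegral_A`, `trdeg_FF`, `isTorsionPoint_mul`, `isTorsionPoint_inv`, the six fields of
`torsAction` (`torsAction_*`), `pullFun_transl_algebraMap`;
plus the calculus of `pullFun` (germ formula, ring homomorphism on the local ring, functoriality)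
and of translations (`transl_one`, `transl_mul`, `transl_over`, `isIso_transl`).
-/

set_option autoImplicit false

universe u

open CategoryTheory CategoryTheory.Limits AlgebraicGeometry NeronModelInfra GoodReductionJacobian

namespace Fermat.Agent.S26.SETUP.X3196

open Fermat.Agent.S26

noncomputable section

/-! ## Calculus of `pullFun` -/

section PullFun

variable {X Y : Scheme.{u}} [IsIntegral X] [IsIntegral Y]

/-- The canonical map from a stalk to the function field is injective. -/
theorem algebraMap_stalk_injective (x : X) :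
    Function.Injective (algebraMap (X.presheaf.stalk x) X.functionField) :=
  IsFractionRing.injective _ _

/-- `pullFun φ` on the image of the stalk at `φ(η_Y)` is the stalk map. -/
theorem pullFun_algebraMap (φ : Y ⟶ X) (t : X.presheaf.stalk (φ.base (genericPoint Y))) :
    pullFun φ (algebraMap (X.presheaf.stalk (φ.base (genericPoint Y))) X.functionField t) =
      (φ.stalkMap (genericPoint Y)).hom t := by
  have h : algebraMap (X.presheaf.stalk (φ.base (genericPoint Y))) X.functionField t ∈
      localRing X (φ.base (genericPoint Y)) := ⟨t, rfl⟩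
  unfold pullFun
  rw [dif_pos h]
  congr 1
  exact algebraMap_stalk_injective _ (Classical.choose_spec h)

theorem pullFun_of_notMem (φ : Y ⟶ X) {u : X.functionField}
    (h : u ∉ localRing X (φ.base (genericPoint Y))) : pullFun φ u = 0 := by
  unfold pullFun
  rw [dif_neg h]

theorem pullFun_zero (φ : Y ⟶ X) : pullFun φ (0 : X.functionField) = 0 := by
  have := pullFun_algebraMap φ 0
  rwa [map_zero, map_zero] at this

theorem pullFun_one (φ : Y ⟶ X) : pullFun φ (1 : X.functionField) = 1 := by
  have := pullFun_algebraMap φ 1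
  rwa [map_one, map_one] at this

theorem pullFun_add (φ : Y ⟶ X) {u v : X.functionField}
    (hu : u ∈ localRing X (φ.base (genericPoint Y)))
    (hv : v ∈ localRing X (φ.base (genericPoint Y))) :
    pullFun φ (u + v) = pullFun φ u + pullFun φ v := by
  obtain ⟨s, rfl⟩ := hu
  obtain ⟨t, rfl⟩ := hv
  rw [← map_add, pullFun_algebraMap, pullFun_algebraMap, pullFun_algebraMap, map_add]

theorem pullFun_mul (φ : Y ⟶ X) {u v : X.functionField}
    (hu : u ∈ localRing X (φ.base (genericPoint Y)))
    (hv : v ∈ localRing X (φ.base (genericPoint Y))) :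
    pullFun φ (u * v) = pullFun φ u * pullFun φ v := by
  obtain ⟨s, rfl⟩ := hu
  obtain ⟨t, rfl⟩ := hv
  rw [← map_mul, pullFun_algebraMap, pullFun_algebraMap, pullFun_algebraMap, map_mul]

/-- Germ formula for `pullFun`: the pullback of the germ of a section `s ∈ Γ(X, U)`,
`φ(η_Y) ∈ U`, is the germ of `φ^* s`. -/
theorem pullFun_germ (φ : Y ⟶ X) (U : X.Opens) (hη : genericPoint X ∈ U)
    (hU : φ.base (genericPoint Y) ∈ U) (s : Γ(X, U)) :
    pullFun φ (X.presheaf.germ U (genericPoint X) hη s) =
      Y.presheaf.germ (φ ⁻¹ᵁ U) (genericPoint Y) hU (φ.app U s) := by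
  have : Nonempty U := ⟨⟨_, hη⟩⟩
  have h1 : X.presheaf.germ U (genericPoint X) hη s =
      algebraMap (X.presheaf.stalk (φ.base (genericPoint Y))) X.functionField
        (X.presheaf.germ U (φ.base (genericPoint Y)) hU s) :=
    (Scheme.algebraMap_germ_eq_germToFunctionField X hU s).symm
  rw [h1, pullFun_algebraMap]
  exact Scheme.Hom.germ_stalkMap_apply φ U (genericPoint Y) hU s

/-- The local ring at the generic point is the whole function field. -/
theorem localRing_genericPoint : localRing X (genericPoint X) = ⊤ := by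
  rw [eq_top_iff]
  intro u _
  obtain ⟨U, hU, s, rfl⟩ := X.presheaf.exists_germ_eq u
  have : Nonempty U := ⟨⟨_, hU⟩⟩
  exact ⟨X.presheaf.germ U (genericPoint X) hU s,
    Scheme.algebraMap_germ_eq_germToFunctionField X hU s⟩

theorem mem_localRing_of_dominant (φ : Y ⟶ X) (hφ : φ.base (genericPoint Y) = genericPoint X)
    (u : X.functionField) : u ∈ localRing X (φ.base (genericPoint Y)) := by
  rw [hφ, localRing_genericPoint]
  trivial

/-- `pullFun` of the identity. -/
theorem pullFun_id (u : X.functionField) : pullFun (𝟙 X) u = u := by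
  obtain ⟨U, hU, s, rfl⟩ := X.presheaf.exists_germ_eq u
  rw [pullFun_germ (𝟙 X) U hU hU s]
  simp only [Scheme.Hom.id_app]
  rfl

/-- Functoriality of `pullFun` for morphisms preserving generic points. -/
theorem pullFun_comp {Z : Scheme.{u}} [IsIntegral Z] (φ : Z ⟶ Y) (ψ : Y ⟶ X)
    (hφ : φ.base (genericPoint Z) = genericPoint Y)
    (hψ : ψ.base (genericPoint Y) = genericPoint X) (u : X.functionField) :
    pullFun (φ ≫ ψ) u = pullFun φ (pullFun ψ u) := by
  obtain ⟨U, hU, s, rfl⟩ := X.presheaf.exists_germ_eq u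
  have hU' : ψ.base (genericPoint Y) ∈ U := hψ ▸ hU
  have hU'' : (φ ≫ ψ).base (genericPoint Z) ∈ U := by
    change ψ.base (φ.base (genericPoint Z)) ∈ U
    rw [hφ]; exact hU'
  rw [pullFun_germ (φ ≫ ψ) U hU hU'' s, pullFun_germ ψ U hU hU' s]
  have hV : genericPoint Y ∈ ψ ⁻¹ᵁ U := hU'
  have hV' : φ.base (genericPoint Z) ∈ ψ ⁻¹ᵁ U := by rw [hφ]; exact hV
  rw [pullFun_germ φ (ψ ⁻¹ᵁ U) hV hV' (ψ.app U s)]
  simp only [Scheme.Hom.comp_app]
  rfl

end PullFun

/-! ## Calculus of translations -/

section Transl

variable {K : Type u} [Field K] {A : Scheme.{u}} {f : A ⟶ Spec (CommRingCat.of K)}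

/-- The constant `T`-point with value the `K`-point `a`. -/
def cst {T : Scheme.{u}} (t : T ⟶ Spec (CommRingCat.of K)) (a : Pts f) : SchemeHomOver t f :=
  schemeHomOverComp t (Category.comp_id t) a

theorem constPt_eq_cst (a : Pts f) : constPt a = cst f a := rfl

theorem schemeHomOverComp_cst {T T' : Scheme.{u}} (t : T ⟶ Spec (CommRingCat.of K))
    (t' : T' ⟶ Spec (CommRingCat.of K)) (ψ : T' ⟶ T) (hψ : ψ ≫ t = t') (a : Pts f) :
    schemeHomOverComp ψ hψ (cst t a) = cst t' a := by
  apply Subtype.ext
  change ψ ≫ t ≫ a.1 = t' ≫ a.1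
  rw [← Category.assoc, hψ]

theorem cst_mul (L : RelativeGroupLaw K f) {T : Scheme.{u}} (t : T ⟶ Spec (CommRingCat.of K))
    (a b : Pts f) : cst t (L.mul (𝟙 _) a b) = L.mul t (cst t a) (cst t b) :=
  L.mul_natural (𝟙 _) t t (Category.comp_id t) a b

theorem cst_one (L : RelativeGroupLaw K f) {T : Scheme.{u}} (t : T ⟶ Spec (CommRingCat.of K)) :
    cst t (L.one (𝟙 _)) = L.one t :=
  L.one_natural (𝟙 _) t t (Category.comp_id t)

/-- Yoneda description of the translation: `x ≫ t_a = x · a` on `T`-points. -/
theorem comp_transl (L : RelativeGroupLaw K f) {T : Scheme.{u}}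
    (t : T ⟶ Spec (CommRingCat.of K)) (x : SchemeHomOver t f) (a : Pts f) :
    x.1 ≫ transl L a = (L.mul t x (cst t a)).1 := by
  have h := L.mul_natural f t x.1 x.2 RelativeGroupLaw.idPoint (constPt a)
  have h1 : schemeHomOverComp x.1 x.2 (RelativeGroupLaw.idPoint : SchemeHomOver f f) = x :=
    Subtype.ext (Category.comp_id _)
  have h2 : schemeHomOverComp x.1 x.2 (constPt a) = cst t a :=
    schemeHomOverComp_cst f t x.1 x.2 a
  rw [h1, h2] at h
  exact congrArg Subtype.val h

/-- Translations are morphisms over `K`. -/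
theorem transl_over (L : RelativeGroupLaw K f) (a : Pts f) : transl L a ≫ f = f :=
  (L.mul f RelativeGroupLaw.idPoint (constPt a)).2

theorem transl_one (L : RelativeGroupLaw K f) : transl L (L.one (𝟙 _)) = 𝟙 A := by
  unfold transl
  rw [constPt_eq_cst, cst_one, L.mul_one]

theorem transl_mul (L : RelativeGroupLaw K f) (a b : Pts f) :
    transl L (L.mul (𝟙 _) a b) = transl L a ≫ transl L b := by
  have h := comp_transl L f ⟨transl L a, transl_over L a⟩ b
  change transl L a ≫ transl L b = _ at h
  rw [h]
  change (L.mul f RelativeGroupLaw.idPoint (constPt (L.mul (𝟙 _) a b))).1 =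
    (L.mul f (L.mul f RelativeGroupLaw.idPoint (constPt a)) (cst f b)).1
  rw [L.mul_assoc, constPt_eq_cst, constPt_eq_cst, cst_mul]

theorem transl_comp_transl_inv (L : RelativeGroupLaw K f) (a : Pts f) :
    transl L a ≫ transl L (L.inv (𝟙 _) a) = 𝟙 A := by
  rw [← transl_mul, L.mul_inv_cancel, transl_one]

theorem transl_inv_comp_transl (L : RelativeGroupLaw K f) (a : Pts f) :
    transl L (L.inv (𝟙 _) a) ≫ transl L a = 𝟙 A := by
  rw [← transl_mul, L.inv_mul_cancel, transl_one]

/-- Translations are isomorphisms. -/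
theorem isIso_transl (L : RelativeGroupLaw K f) (a : Pts f) : IsIso (transl L a) :=
  ⟨⟨transl L (L.inv (𝟙 _) a), transl_comp_transl_inv L a, transl_inv_comp_transl L a⟩⟩

/-- Translations fix the generic point. -/
theorem transl_genericPoint [IsIntegral A] (L : RelativeGroupLaw K f) (a : Pts f) :
    (transl L a).base (genericPoint A) = genericPoint A := by
  have := isIso_transl L a
  exact genericPoint_eq_of_isOpenImmersion (transl L a)

end Transl

/-! ## Torsion points form a subgroup -/

section Torsion

variable {K : Type u} [Field K] {A : Scheme.{u}} {f : A ⟶ Spec (CommRingCat.of K)}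

theorem nsmul_mul (L : RelativeGroupLaw K f) (hc : L.IsCommutative) {T : Scheme.{u}}
    (t : T ⟶ Spec (CommRingCat.of K)) (n : ℕ) (x y : SchemeHomOver t f) :
    L.nsmul t n (L.mul t x y) = L.mul t (L.nsmul t n x) (L.nsmul t n y) := by
  induction n with
  | zero =>
    rw [RelativeGroupLaw.nsmul_zero, RelativeGroupLaw.nsmul_zero, RelativeGroupLaw.nsmul_zero,
      L.one_mul]
  | succ n ih =>
    rw [RelativeGroupLaw.nsmul_succ, ih, RelativeGroupLaw.nsmul_succ,
      RelativeGroupLaw.nsmul_succ, L.mul_assoc, L.mul_assoc,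
      ← L.mul_assoc t (L.nsmul t n y) x y, hc t (L.nsmul t n y) x, L.mul_assoc]

theorem isTorsionPoint_mul_gen (L : RelativeGroupLaw K f) (hc : L.IsCommutative)
    {T : Scheme.{u}} (t : T ⟶ Spec (CommRingCat.of K)) (n : ℕ) {x y : SchemeHomOver t f}
    (hx : L.IsTorsionPoint t n x) (hy : L.IsTorsionPoint t n y) :
    L.IsTorsionPoint t n (L.mul t x y) := by
  change L.nsmul t n (L.mul t x y) = L.one t
  rw [nsmul_mul L hc, (hx : L.nsmul t n x = L.one t), (hy : L.nsmul t n y = L.one t), L.one_mul]

theorem isTorsionPoint_inv_gen (L : RelativeGroupLaw K f) (hc : L.IsCommutative)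
    {T : Scheme.{u}} (t : T ⟶ Spec (CommRingCat.of K)) (n : ℕ) {x : SchemeHomOver t f}
    (hx : L.IsTorsionPoint t n x) : L.IsTorsionPoint t n (L.inv t x) := by
  change L.nsmul t n (L.inv t x) = L.one t
  have h := nsmul_mul L hc t n (L.inv t x) x
  rw [L.inv_mul_cancel, L.nsmul_unit, (hx : L.nsmul t n x = L.one t), L.mul_one] at h
  exact h.symm

end Torsion

/-! ## The P2 exports of `Top.lean` (exact frozen signatures) -/

section Exports

set_option linter.unusedSectionVars false
set_option linter.unusedVariables false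

variable {K : Type u} [Field K] [IsAlgClosed K] {A : Scheme.{u}}
  {f : A ⟶ Spec (CommRingCat.of K)}

/-- P2 EXPORT 1: `A` is integral. -/
theorem isIntegral_A (L : RelativeGroupLaw K f) (hA : AbelianSchemePropertyBundle K f) :
    IsIntegral A :=
  SETUP.isIntegral_of_bundle f hA

theorem constHom_eq_stalkAlgebraMap [IsIntegral A] :
    constHom f = SETUP.stalkAlgebraMap f (genericPoint A) := by
  ext c
  have h : SETUP.sectionsAlgebraMap f ⊤ c =
      f.appTop.hom ((Scheme.ΓSpecIso (CommRingCat.of K)).inv.hom c) := by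
    change (A.presheaf.map (𝟙 _)).hom _ = _
    rw [A.presheaf.map_id]
    rfl
  change _ = (A.presheaf.germ ⊤ (genericPoint A) trivial).hom (SETUP.sectionsAlgebraMap f ⊤ c)
  rw [h]
  rfl

/-- P2 EXPORT 2: the transcendence degree of `K(A)` over `K` is `g`. -/
theorem trdeg_FF [IsIntegral A] (L : RelativeGroupLaw K f)
    (hA : AbelianSchemePropertyBundle K f) (g : ℕ) [SmoothOfRelativeDimension g f] :
    Algebra.trdeg K (FF f) = (g : Cardinal.{u}) := by
  have h := SETUP.trdeg_functionField f g
  have heq : (constHom f).toAlgebra = SETUP.functionFieldAlgebra f := by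
    unfold SETUP.functionFieldAlgebra
    rw [constHom_eq_stalkAlgebraMap]
  change @Algebra.trdeg K A.functionField _ _ (constHom f).toAlgebra = _
  rw [heq]
  exact h

/-- P2 EXPORT 3a: the product of two `n`-torsion points is `n`-torsion (commutative case). -/
theorem isTorsionPoint_mul (L : RelativeGroupLaw K f) (hc : L.IsCommutative) (n : ℕ)
    {x y : Pts f} (hx : L.IsTorsionPoint (𝟙 _) n x) (hy : L.IsTorsionPoint (𝟙 _) n y) :
    L.IsTorsionPoint (𝟙 _) n (L.mul (𝟙 _) x y) :=
  isTorsionPoint_mul_gen L hc (𝟙 _) n hx hy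

/-- P2 EXPORT 3b: the inverse of an `n`-torsion point is `n`-torsion. -/
theorem isTorsionPoint_inv (L : RelativeGroupLaw K f) (hc : L.IsCommutative) (n : ℕ)
    {x : Pts f} (hx : L.IsTorsionPoint (𝟙 _) n x) :
    L.IsTorsionPoint (𝟙 _) n (L.inv (𝟙 _) x) :=
  isTorsionPoint_inv_gen L hc (𝟙 _) n hx

/-! ### The six fields of `torsAction` (stated for arbitrary `K`-points) -/

theorem pullFun_transl_one [IsIntegral A] (L : RelativeGroupLaw K f) (u : FF f) :
    pullFun (transl L (L.one (𝟙 _))) u = u := by
  rw [transl_one]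
  exact pullFun_id (X := A) u

theorem pullFun_transl_mul [IsIntegral A] (L : RelativeGroupLaw K f) (a b : Pts f) (u : FF f) :
    pullFun (transl L (L.mul (𝟙 _) a b)) u = pullFun (transl L a) (pullFun (transl L b) u) := by
  rw [transl_mul]
  exact pullFun_comp (transl L a) (transl L b) (transl_genericPoint L a)
    (transl_genericPoint L b) u

theorem pullFun_transl_zero [IsIntegral A] (L : RelativeGroupLaw K f) (a : Pts f) :
    pullFun (transl L a) (0 : FF f) = 0 :=
  pullFun_zero (transl L a)

theorem pullFun_transl_add [IsIntegral A] (L : RelativeGroupLaw K f) (a : Pts f) (u v : FF f) :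
    pullFun (transl L a) (u + v) = pullFun (transl L a) u + pullFun (transl L a) v :=
  pullFun_add (transl L a) (mem_localRing_of_dominant _ (transl_genericPoint L a) _)
    (mem_localRing_of_dominant _ (transl_genericPoint L a) _)

theorem pullFun_transl_one' [IsIntegral A] (L : RelativeGroupLaw K f) (a : Pts f) :
    pullFun (transl L a) (1 : FF f) = 1 :=
  pullFun_one (transl L a)

theorem pullFun_transl_mul' [IsIntegral A] (L : RelativeGroupLaw K f) (a : Pts f) (u v : FF f) :
    pullFun (transl L a) (u * v) = pullFun (transl L a) u * pullFun (transl L a) v :=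
  pullFun_mul (transl L a) (mem_localRing_of_dominant _ (transl_genericPoint L a) _)
    (mem_localRing_of_dominant _ (transl_genericPoint L a) _)

/-- Copy of `torsCommGroup` of `Top.lean`, built on the proved closure lemmas. -/
def torsCommGroup (L : RelativeGroupLaw K f) (hc : L.IsCommutative) (n : ℕ) :
    CommGroup (TorsPts L n) where
  mul x y := ⟨L.mul (𝟙 _) x.1 y.1, isTorsionPoint_mul L hc n x.2 y.2⟩
  one := ⟨L.one (𝟙 _), L.isTorsionPoint_unit (𝟙 _) n⟩
  inv x := ⟨L.inv (𝟙 _) x.1, isTorsionPoint_inv L hc n x.2⟩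
  mul_assoc x y z := Subtype.ext (L.mul_assoc (𝟙 _) x.1 y.1 z.1)
  one_mul x := Subtype.ext (L.one_mul (𝟙 _) x.1)
  mul_one x := Subtype.ext (L.mul_one (𝟙 _) x.1)
  inv_mul_cancel x := Subtype.ext (L.inv_mul_cancel (𝟙 _) x.1)
  mul_comm x y := Subtype.ext (hc (𝟙 _) x.1 y.1)

/-- P2 EXPORT 4 (copy of `torsAction` of `Top.lean` with all six fields proved):
translations act on the function field. -/
def torsAction [IsIntegral A] (L : RelativeGroupLaw K f) (hc : L.IsCommutative) (n : ℕ) :
    letI := torsCommGroup L hc n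
    MulSemiringAction (TorsPts L n) (FF f) :=
  letI := torsCommGroup L hc n
  { smul := fun a u => pullFun (transl L a.1) u
    one_smul := fun u => pullFun_transl_one L u
    mul_smul := fun a b u => pullFun_transl_mul L a.1 b.1 u
    smul_zero := fun a => pullFun_transl_zero L a.1
    smul_add := fun a u v => pullFun_transl_add L a.1 u v
    smul_one := fun a => pullFun_transl_one' L a.1
    smul_mul := fun a u v => pullFun_transl_mul' L a.1 u v }

/-- P2 EXPORT 5: translations are `K`-linear on the function field. -/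
theorem pullFun_transl_algebraMap [IsIntegral A] (L : RelativeGroupLaw K f) (a : Pts f) (c : K) :
    pullFun (transl L a) (algebraMap K (FF f) c) = algebraMap K (FF f) c := by
  have hη : genericPoint A ∈ (⊤ : A.Opens) := trivial
  have hU : (transl L a).base (genericPoint A) ∈ (⊤ : A.Opens) := trivial
  have h := pullFun_germ (transl L a) ⊤ hη hU
    (f.appTop.hom ((Scheme.ΓSpecIso (CommRingCat.of K)).inv.hom c))
  have hover : (transl L a).app ⊤ (f.appTop.hom ((Scheme.ΓSpecIso (CommRingCat.of K)).inv.hom c))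
      = f.appTop.hom ((Scheme.ΓSpecIso (CommRingCat.of K)).inv.hom c) := by
    have h2 : (transl L a ≫ f).appTop = f.appTop := by rw [transl_over]
    rw [Scheme.Hom.comp_appTop] at h2
    exact congrArg (fun φ => φ.hom ((Scheme.ΓSpecIso (CommRingCat.of K)).inv.hom c)) h2
  rw [hover] at h
  exact h

end Exports

end

end Fermat.Agent.S26.SETUP.X3196
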